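import Mathlib.Algebra.Order.BigOperators.Group.Finset
import Mathlib.Algebra.Order.Chebyshev
import Mathlib.Algebra.Polynomial.Taylor
import Mathlib.Data.ZMod.Basic
import Mathlib.Order.Filter.AtTopBot.Archimedean
import Mathlib.Analysis.Real.Sqrt
import Mathlib.Tactic.LinearCombination

/-!
# Van der Corput differencing on a cyclic group

For `|f| ≤ 1` on `ZMod n` the averages of `f` along a polynomial sequence are small in mean as soon
as the averages along finitely many progressions, of any one fixed length, are.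
-/

set_option autoImplicit false

noncomputable section

namespace FA.FurstenbergSarkozy

open Finset Filter Polynomial

variable {n : ℕ} [NeZero n]

/-- The sum of `f` over `L` terms of a progression with step `s`. -/
def window (f : ZMod n → ℝ) (s : ℤ) (L : ℕ) (y : ZMod n) : ℝ :=
  ∑ i ∈ range L, f (y + ((s * i : ℤ) : ZMod n))

/-- The mean of the absolute value of the sums of `f` along `Q`. -/
def polyMass (f : ZMod n → ℝ) (Q : ℤ[X]) (M : ℕ) : ℝ :=
  ∑ y : ZMod n, |∑ m ∈ range M, f (y + ((Q.eval (m : ℤ) : ℤ) : ZMod n))|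

theorem abs_sum_shift_sub_le {g : ℕ → ℝ} (hg : ∀ m, |g m| ≤ 1) (M i : ℕ) :
    |∑ m ∈ range M, g (m + i) - ∑ m ∈ range M, g m| ≤ 2 * i := by
  have h1 := sum_range_add g i M
  have h2 := sum_range_add g M i
  rw [add_comm i M] at h1
  have e : ∑ m ∈ range M, g (m + i) = ∑ m ∈ range M, g (i + m) :=
    sum_congr rfl fun m _ => by rw [add_comm]
  have hb : ∀ k : ℕ, |∑ j ∈ range i, g (k + j)| ≤ i := fun k =>
    (abs_sum_le_sum_abs _ _).trans ((sum_le_sum fun j _ => hg (k + j)).trans (by simp))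
  have h3 := abs_le.1 (hb M)
  have h4 := abs_le.1 (hb 0)
  simp only [zero_add] at h4
  rw [abs_le, e]
  constructor <;> linarith

theorem mul_abs_sum_le {g : ℕ → ℝ} (hg : ∀ m, |g m| ≤ 1) (M L : ℕ) :
    (L : ℝ) * |∑ m ∈ range M, g m| ≤
      ∑ m ∈ range M, |∑ i ∈ range L, g (m + i)| + 2 * (L : ℝ) * L := by
  have h : |(L : ℝ) * ∑ m ∈ range M, g m - ∑ m ∈ range M, ∑ i ∈ range L, g (m + i)| ≤
      2 * (L : ℝ) * L := by
    rw [sum_comm, show (L : ℝ) * ∑ m ∈ range M, g m = ∑ _i ∈ range L, ∑ m ∈ range M, g m by simp,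
      ← sum_sub_distrib]
    refine (abs_sum_le_sum_abs _ _).trans ((sum_le_sum fun i hi => ?_).trans
      (le_of_eq (show ∑ _i ∈ range L, 2 * (L : ℝ) = 2 * (L : ℝ) * L by simp; ring)))
    rw [abs_sub_comm]
    exact (abs_sum_shift_sub_le hg M i).trans
      (mul_le_mul_of_nonneg_left (Nat.cast_le.2 (mem_range.1 hi).le) two_pos.le)
  have h2 := (abs_sub_abs_le_abs_sub _ _).trans h
  rw [abs_mul, Nat.abs_cast] at h2
  linarith [abs_sum_le_sum_abs (fun m => ∑ i ∈ range L, g (m + i)) (range M)]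

theorem sum_translate {β : Type*} [AddCommMonoid β] (g : ZMod n → β) (c : ZMod n) :
    ∑ y : ZMod n, g (y + c) = ∑ y : ZMod n, g y :=
  Fintype.sum_equiv (Equiv.addRight c) _ _ fun _ => rfl

theorem sum_abs_window_natAbs (f : ZMod n → ℝ) (s : ℤ) (L : ℕ) :
    ∑ y : ZMod n, |window f s L y| = ∑ y : ZMod n, |window f (s.natAbs : ℤ) L y| := by
  rcases Int.natAbs_eq s with h | h
  · rw [← h]
  rw [h, Int.natAbs_neg, Int.natAbs_natCast]
  obtain ⟨b, hb⟩ : ∃ b : ℕ, b = s.natAbs := ⟨_, rfl⟩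
  rw [← hb, ← sum_translate (fun y => |window f (b : ℤ) L y|)
    (((-(b : ℤ)) * (L - 1 : ℕ) : ℤ) : ZMod n)]
  refine sum_congr rfl fun y _ => congrArg abs ?_
  rw [window, window, ← sum_range_reflect]
  refine sum_congr rfl fun i hi => congrArg f ?_
  rw [mem_range] at hi
  rw [add_assoc, ← Int.cast_add, Nat.cast_sub (show i ≤ L - 1 by omega)]
  congr 2
  ring

theorem natDegree_difference {Q : ℤ[X]} {d : ℕ} (hQ : Q.natDegree = d + 1) {h h' : ℤ}
    (hne : h ≠ h') : (taylor h Q - taylor h' Q).natDegree = d := by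
  have hlin : (hasseDeriv d Q).natDegree < 2 :=
    lt_of_le_of_lt (natDegree_hasseDeriv_le Q d) (by omega)
  refine natDegree_eq_of_le_of_coeff_ne_zero (natDegree_le_iff_coeff_eq_zero.2 fun i hi => ?_) ?_
  · rw [coeff_sub, sub_eq_zero, taylor_coeff, taylor_coeff]
    rcases (show d + 1 ≤ i by omega).eq_or_lt with rfl | hi'
    · have e : ∀ x : ℤ, (hasseDeriv (d + 1) Q).eval x = (hasseDeriv (d + 1) Q).coeff 0 := by
        intro x
        rw [eq_C_of_natDegree_le_zero ((natDegree_hasseDeriv_le Q (d + 1)).trans (by omega))]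
        simp
      rw [e h, e h']
    · rw [hasseDeriv_eq_zero_of_lt_natDegree Q i (by omega)]
      simp
  · rw [coeff_sub, taylor_coeff, taylor_coeff, eval_eq_sum_range' hlin, eval_eq_sum_range' hlin]
    simp only [sum_range_succ, sum_range_zero, hasseDeriv_coeff, zero_add, pow_zero, pow_one,
      mul_one]
    have hlc : Q.coeff (1 + d) ≠ 0 := by
      rw [add_comm, ← hQ]
      exact leadingCoeff_ne_zero.2 fun e => by simp [e] at hQ
    have hch : ((1 + d).choose d : ℤ) ≠ 0 :=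
      Nat.cast_ne_zero.2 (Nat.choose_pos (by omega)).ne'
    have : ((1 + d).choose d : ℤ) * Q.coeff (1 + d) * (h - h') ≠ 0 :=
      mul_ne_zero (mul_ne_zero hch hlc) (sub_ne_zero.2 hne)
    intro e
    exact this (by linear_combination e)

/-- **One differencing**: the square of the mean is bounded by those of the differences. -/
theorem polyMass_le_difference {f : ZMod n → ℝ} (hf : ∀ y, |f y| ≤ 1) (Q : ℤ[X]) {H M : ℕ}
    (hH : 0 < H) {θ : ℝ} (hθ : 0 ≤ θ) (hoff : ∀ a ∈ range H, ∀ b ∈ range H, a ≠ b →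
      polyMass f (taylor (b : ℤ) Q - taylor (a : ℤ) Q) M ≤ θ * M * n) :
    polyMass f Q M ≤ M * n * Real.sqrt (1 / H + θ) + 2 * (H : ℝ) * n := by
  obtain ⟨T, hT⟩ : ∃ T : ZMod n → ℕ → ℝ, T = fun y m =>
      ∑ a ∈ range H, f (y + ((Q.eval ((m + a : ℕ) : ℤ) : ℤ) : ZMod n)) := ⟨_, rfl⟩
  have h1 : (H : ℝ) * polyMass f Q M ≤
      ∑ y : ZMod n, ∑ m ∈ range M, |T y m| + 2 * (H : ℝ) * H * n := by
    rw [polyMass, mul_sum]
    refine (sum_le_sum fun y _ => mul_abs_sum_le (fun m => hf _) M H).trans (le_of_eq ?_)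
    rw [sum_add_distrib, sum_const, card_univ, ZMod.card, nsmul_eq_mul, hT]
    ring
  have h2 : ∑ y : ZMod n, ∑ m ∈ range M, T y m ^ 2 ≤
      (H : ℝ) * (M * n) + (H : ℝ) * H * (θ * M * n) := by
    have e : ∑ y : ZMod n, ∑ m ∈ range M, T y m ^ 2 = ∑ a ∈ range H, ∑ b ∈ range H,
        ∑ y : ZMod n, f y * ∑ m ∈ range M,
          f (y + (((taylor (b : ℤ) Q - taylor (a : ℤ) Q).eval (m : ℤ) : ℤ) : ZMod n)) := by
      simp only [hT, pow_two]
      simp only [sum_mul_sum]
      refine (sum_congr rfl fun y _ => sum_comm).trans (sum_comm.trans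
        (sum_congr rfl fun a _ => ?_))
      refine (sum_congr rfl fun y _ => sum_comm).trans (sum_comm.trans
        (sum_congr rfl fun b _ => ?_))
      simp only [mul_sum]
      refine sum_comm.trans (Eq.trans (sum_congr rfl fun m _ => ?_) sum_comm)
      conv_rhs => rw [← sum_translate _ ((Q.eval ((m + a : ℕ) : ℤ) : ℤ) : ZMod n)]
      refine sum_congr rfl fun y _ => ?_
      rw [eval_sub, taylor_eval, taylor_eval, Int.cast_sub]
      push_cast
      congr 2
      ring
    rw [e]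
    have hb : ∀ a ∈ range H, ∀ b ∈ range H, ∑ y : ZMod n, f y * ∑ m ∈ range M,
        f (y + (((taylor (b : ℤ) Q - taylor (a : ℤ) Q).eval (m : ℤ) : ℤ) : ZMod n)) ≤
          (if a = b then (M : ℝ) * n else 0) + θ * M * n := by
      intro a ha b hb
      refine le_trans (sum_le_sum fun y _ => le_trans (le_abs_self _) ((abs_mul _ _).trans_le
        (mul_le_of_le_one_left (abs_nonneg _) (hf y)))) ?_
      split_ifs with h
      · refine le_trans ?_ (le_add_of_nonneg_right (by positivity))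
        refine (sum_le_sum fun y _ => (abs_sum_le_sum_abs _ _).trans
          (sum_le_sum fun m _ => hf _)).trans (le_of_eq ?_)
        simp [mul_comm]
      · rw [zero_add]
        exact hoff a ha b hb h
    refine (sum_le_sum fun a ha => sum_le_sum (hb a ha)).trans (le_of_eq ?_)
    simp only [sum_add_distrib, sum_const, card_range, nsmul_eq_mul, sum_ite_eq, mem_range]
    rw [sum_congr rfl fun a ha => if_pos (mem_range.1 ha), sum_const, card_range, nsmul_eq_mul]
    ring
  have hH0 : (0 : ℝ) < H := Nat.cast_pos.2 hH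
  have h3 : (∑ y : ZMod n, ∑ m ∈ range M, |T y m|) ≤ M * n * H * Real.sqrt (1 / H + θ) := by
    rw [← sq_le_sq₀ (sum_nonneg fun _ _ => sum_nonneg fun _ _ => abs_nonneg _) (by positivity),
      mul_pow, Real.sq_sqrt (by positivity), ← sum_product']
    refine sq_sum_le_card_mul_sum_sq.trans ?_
    rw [card_product, card_univ, ZMod.card, card_range, Nat.cast_mul, sum_product]
    simp only [sq_abs]
    refine (mul_le_mul_of_nonneg_left h2 (by positivity)).trans (le_of_eq ?_)
    field_simp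
  refine le_of_mul_le_mul_left ?_ hH0
  linarith

theorem polyMass_linear_le {f : ZMod n → ℝ} (hf : ∀ y, |f y| ≤ 1) (c s : ℤ) {L M : ℕ}
    (hL : 0 < L) {ρ : ℝ} (hW : ∑ y : ZMod n, |window f s L y| ≤ ρ * L * n) :
    polyMass f (C s * X + C c) M ≤ ρ * M * n + 2 * (L : ℝ) * n := by
  refine le_of_mul_le_mul_left ?_ (Nat.cast_pos.2 hL : (0 : ℝ) < L)
  rw [polyMass, mul_sum]
  refine (sum_le_sum fun y _ => mul_abs_sum_le (fun m => hf _) M L).trans ?_
  rw [sum_add_distrib, sum_const, card_univ, ZMod.card, nsmul_eq_mul, sum_comm]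
  have h1 : ∀ m ∈ range M, ∑ y : ZMod n, |∑ i ∈ range L,
      f (y + (((C s * X + C c).eval ((m + i : ℕ) : ℤ) : ℤ) : ZMod n))| ≤ ρ * L * n := by
    intro m _
    refine le_trans (le_of_eq ?_) hW
    conv_rhs => rw [← sum_translate _ ((s * m + c : ℤ) : ZMod n)]
    refine sum_congr rfl fun y _ => congrArg abs (sum_congr rfl fun i _ => congrArg f ?_)
    rw [eval_add, eval_mul, eval_C, eval_X, eval_C]
    push_cast
    ring
  refine (add_le_add_left (sum_le_sum h1) _).trans (le_of_eq ?_)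
  rw [sum_const, card_range, nsmul_eq_mul]
  ring

/-- **Progressions control polynomial sequences.** The tolerance depends only on the degree. -/
theorem exists_polyMass_le (d : ℕ) : ∀ θ : ℝ, 0 < θ → ∃ ρ : ℝ, 0 < ρ ∧
    ∀ Q : ℤ[X], Q.natDegree = d + 1 → ∃ S : Finset ℕ, 0 ∉ S ∧ ∀ L : ℕ, 0 < L →
      ∀ᶠ M : ℕ in atTop, ∀ (n : ℕ) [NeZero n] (f : ZMod n → ℝ), (∀ y, |f y| ≤ 1) →
        (∀ s ∈ S, ∑ y : ZMod n, |window f (s : ℤ) L y| ≤ ρ * L * n) →
          polyMass f Q M ≤ θ * M * n := by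
  induction d with
  | zero =>
    intro θ hθ
    refine ⟨θ / 2, half_pos hθ, fun Q hQ => ⟨{(Q.coeff 1).natAbs}, ?_, fun L hL => ?_⟩⟩
    · rw [mem_singleton, eq_comm, Int.natAbs_eq_zero]
      have h := leadingCoeff_ne_zero.2 (show Q ≠ 0 from fun e => by simp [e] at hQ)
      rwa [leadingCoeff, hQ] at h
    filter_upwards [(tendsto_natCast_atTop_atTop (R := ℝ)).eventually_ge_atTop (4 * L / θ)]
      with M hM
    intro n _ f hf hW
    rw [eq_X_add_C_of_natDegree_le_one hQ.le]
    refine (polyMass_linear_le hf _ _ hL ((sum_abs_window_natAbs f _ L).trans_le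
      (hW _ (mem_singleton_self _)))).trans ?_
    rw [div_le_iff₀ hθ] at hM
    nlinarith [Nat.cast_nonneg (α := ℝ) n]
  | succ d ih =>
    intro θ hθ
    obtain ⟨H, hH⟩ := exists_nat_gt (8 / θ ^ 2)
    have hH0 : 0 < H := Nat.cast_pos.1 (lt_trans (by positivity) hH)
    obtain ⟨ρ, hρ, hQ'⟩ := ih (θ ^ 2 / 8) (by positivity)
    refine ⟨ρ, hρ, fun Q hQ => ?_⟩
    have hp : ∀ p ∈ (range H ×ˢ range H).filter fun p => p.1 ≠ p.2,
        (taylor (p.2 : ℤ) Q - taylor (p.1 : ℤ) Q).natDegree = d + 1 := fun p hp =>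
      natDegree_difference hQ fun e => (mem_filter.1 hp).2 (Nat.cast_injective e).symm
    choose S hS0 hS using fun p hp' => hQ' _ (hp p hp')
    refine ⟨((range H ×ˢ range H).filter fun p => p.1 ≠ p.2).attach.biUnion fun p =>
      S p.1 p.2, fun h0 => ?_, fun L hL => ?_⟩
    · obtain ⟨p, -, hp0⟩ := mem_biUnion.1 h0
      exact hS0 _ p.2 hp0
    filter_upwards [(tendsto_natCast_atTop_atTop (R := ℝ)).eventually_ge_atTop (4 * H / θ),
      (eventually_all_finset ((range H ×ˢ range H).filter fun p => p.1 ≠ p.2).attach).2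
        fun p _ => hS p.1 p.2 L hL] with M hM hall
    intro n _ f hf hW
    refine (polyMass_le_difference hf Q hH0 (show 0 ≤ θ ^ 2 / 8 by positivity)
      fun a ha b hb hne => hall ⟨(a, b), mem_filter.2 ⟨mem_product.2 ⟨ha, hb⟩, hne⟩⟩
        (mem_attach _ _) n f hf fun s hs => hW s (mem_biUnion.2 ⟨_, mem_attach _ _, hs⟩)).trans ?_
    have hsq : Real.sqrt (1 / (H : ℝ) + θ ^ 2 / 8) ≤ θ / 2 := by
      rw [Real.sqrt_le_iff]
      refine ⟨by positivity, ?_⟩
      have h8 : 1 / (H : ℝ) ≤ θ ^ 2 / 8 := by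
        rw [div_lt_iff₀ (by positivity)] at hH
        rw [div_le_div_iff₀ (by positivity) (by norm_num)]
        linarith
      nlinarith
    rw [div_le_iff₀ hθ] at hM
    nlinarith [Nat.cast_nonneg (α := ℝ) n, mul_le_mul_of_nonneg_left hsq
      (show (0 : ℝ) ≤ M * n by positivity)]

end FA.FurstenbergSarkozy
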