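import Mathlib.Algebra.Polynomial.Roots
import Mathlib.Analysis.Subadditive

/-!
# Extremal densities of the scaled polynomials

For `P = X R` put `P_t x = x R (t x)`. A set free of differences `P_t` pulls back along a
progression of step `s` to one free of `P_(t s)`: these maximal sizes are subadditive and compare.
-/

set_option autoImplicit false

noncomputable section

namespace FA.FurstenbergSarkozy

open Finset Filter Polynomial
open scoped Topology

/-- The scaled polynomial `x ↦ x R (t x)`. -/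
def scaled (R : ℤ[X]) (t : ℕ) : ℤ[X] := X * R.comp (C (t : ℤ) * X)

theorem scaled_eval (R : ℤ[X]) (t : ℕ) (x : ℤ) :
    (scaled R t).eval x = x * R.eval ((t : ℤ) * x) := by
  simp [scaled]

theorem natDegree_scaled {R : ℤ[X]} (hR : R ≠ 0) {t : ℕ} (ht : t ≠ 0) :
    (scaled R t).natDegree = R.natDegree + 1 := by
  have hd : (R.comp (C (t : ℤ) * X)).natDegree = R.natDegree := by
    rw [natDegree_comp, natDegree_C_mul_X _ (Nat.cast_ne_zero.2 ht), mul_one]
  have hne : R.comp (C (t : ℤ) * X) ≠ 0 := fun e => by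
    rcases comp_eq_zero_iff.1 e with h | ⟨-, h⟩
    · exact hR h
    · have := congrArg natDegree h
      rw [natDegree_C_mul_X _ (Nat.cast_ne_zero.2 ht), natDegree_C] at this
      omega
  rw [scaled, natDegree_mul X_ne_zero hne, natDegree_X, hd, add_comm]

/-- No two elements of `A` differ by a non-zero value of `Q` at a natural number. -/
def IsFree (Q : ℤ[X]) (A : Finset ℤ) : Prop :=
  ∀ a ∈ A, ∀ b ∈ A, ∀ m : ℕ, a - b = Q.eval (m : ℤ) → a = b

/-- The largest size of a free subset of `[1, L]`. -/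
def maxFree (Q : ℤ[X]) (L : ℕ) : ℕ :=
  open scoped Classical in ((Icc (1 : ℤ) L).powerset.filter (IsFree Q)).sup Finset.card

theorem card_le_maxFree {Q : ℤ[X]} {A : Finset ℤ} {L : ℕ} (hA : A ⊆ Icc (1 : ℤ) L)
    (h : IsFree Q A) : A.card ≤ maxFree Q L := by
  classical
  exact le_sup (mem_filter.2 ⟨mem_powerset.2 hA, h⟩)

theorem exists_card_eq_maxFree (Q : ℤ[X]) (L : ℕ) :
    ∃ A : Finset ℤ, A ⊆ Icc (1 : ℤ) L ∧ IsFree Q A ∧ A.card = maxFree Q L := by
  classical
  obtain ⟨A, hA, he⟩ := exists_mem_eq_sup ((Icc (1 : ℤ) L).powerset.filter (IsFree Q))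
    ⟨∅, mem_filter.2 ⟨mem_powerset.2 (empty_subset _), fun a ha => absurd ha (notMem_empty a)⟩⟩
    Finset.card
  rw [mem_filter, mem_powerset] at hA
  exact ⟨A, hA.1, hA.2, he.symm⟩

theorem maxFree_le (Q : ℤ[X]) (L : ℕ) : maxFree Q L ≤ L := by
  obtain ⟨A, hA, -, he⟩ := exists_card_eq_maxFree Q L
  exact he ▸ (card_le_card hA).trans (by simp)

/-- **Pulling back along a progression.** -/
theorem card_progression_le {R : ℤ[X]} {t s : ℕ} (hs : s ≠ 0) {A : Finset ℤ}
    (h : IsFree (scaled R t) A) (z : ℤ) (L : ℕ) :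
    ((Icc (1 : ℤ) L).filter fun i => z + (s : ℤ) * i ∈ A).card ≤
      maxFree (scaled R (t * s)) L := by
  refine card_le_maxFree (filter_subset _ _) fun a ha b hb m hm => ?_
  rw [mem_filter] at ha hb
  have h1 := h _ ha.2 _ hb.2 (s * m) (by
    rw [scaled_eval] at hm ⊢
    rw [show z + (s : ℤ) * a - (z + (s : ℤ) * b) = (s : ℤ) * (a - b) by ring, hm]
    push_cast
    ring)
  exact mul_left_cancel₀ (Nat.cast_ne_zero.2 hs) (add_left_cancel h1)

theorem subadditive_maxFree (R : ℤ[X]) (t : ℕ) :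
    Subadditive fun L => (maxFree (scaled R t) L : ℝ) := fun m k => by
  obtain ⟨A, hA, hfree, he⟩ := exists_card_eq_maxFree (scaled R t) (m + k)
  simp only
  rw [← he, ← card_filter_add_card_filter_not (s := A) (fun x => x ≤ (m : ℤ)), ← Nat.cast_add]
  refine Nat.cast_le.2 (Nat.add_le_add (card_le_maxFree (fun x hx => ?_) fun a ha b hb =>
    hfree a (mem_filter.1 ha).1 b (mem_filter.1 hb).1) ?_)
  · rw [mem_filter] at hx
    exact mem_Icc.2 ⟨(mem_Icc.1 (hA hx.1)).1, hx.2⟩
  refine le_trans ?_ ((card_progression_le one_ne_zero hfree (m : ℤ) k).trans_eq (by rw [mul_one]))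
  refine card_le_card_of_injOn (fun x => x - (m : ℤ)) (fun x hx => ?_)
    fun x _ y _ e => by simpa using e
  rw [mem_coe, mem_filter] at hx
  have := mem_Icc.1 (hA hx.1)
  rw [mem_coe, mem_filter, mem_Icc]
  push_cast at this ⊢
  exact ⟨by omega, by simpa using hx.1⟩

/-- The extremal density. -/
def density (R : ℤ[X]) (t : ℕ) : ℝ := (subadditive_maxFree R t).lim

theorem bddBelow_maxFree_div (R : ℤ[X]) (t : ℕ) :
    BddBelow (Set.range fun L : ℕ => (maxFree (scaled R t) L : ℝ) / L) :=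
  ⟨0, fun _ ⟨_, h⟩ => h ▸ by positivity⟩

theorem tendsto_density (R : ℤ[X]) (t : ℕ) :
    Tendsto (fun L : ℕ => (maxFree (scaled R t) L : ℝ) / L) atTop (𝓝 (density R t)) :=
  (subadditive_maxFree R t).tendsto_lim (bddBelow_maxFree_div R t)

theorem density_mul_le (R : ℤ[X]) (t : ℕ) {L : ℕ} (hL : L ≠ 0) :
    density R t * L ≤ maxFree (scaled R t) L :=
  (le_div_iff₀ (Nat.cast_pos.2 (Nat.pos_of_ne_zero hL))).1
    ((subadditive_maxFree R t).lim_le_div (bddBelow_maxFree_div R t) hL)

theorem density_le_one (R : ℤ[X]) (t : ℕ) : density R t ≤ 1 :=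
  le_of_tendsto (tendsto_density R t) (Eventually.of_forall fun L =>
    div_le_one_of_le₀ (Nat.cast_le.2 (maxFree_le _ L)) (Nat.cast_nonneg L))

theorem density_nonneg (R : ℤ[X]) (t : ℕ) : 0 ≤ density R t :=
  ge_of_tendsto' (tendsto_density R t) fun L => by positivity

theorem eventually_maxFree_le (R : ℤ[X]) (t : ℕ) {b : ℝ} (hb : density R t < b) :
    ∀ᶠ L : ℕ in atTop, (maxFree (scaled R t) L : ℝ) ≤ b * L := by
  filter_upwards [(tendsto_density R t).eventually (eventually_lt_nhds hb),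
    eventually_ge_atTop 1] with L hL hL1
  exact ((div_lt_iff₀ (Nat.cast_pos.2 hL1)).1 hL).le

end FA.FurstenbergSarkozy
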