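import Fermat.Agent.FurstenbergSarkozy.Differencing
import Fermat.Agent.FurstenbergSarkozy.Extremal

/-!
# The theorem of Furstenberg and Sárközy

An extremal free set is spread evenly along every progression of bounded step and fixed length, so
its differences meet every polynomial sequence, unless its density is zero.
-/

set_option autoImplicit false

noncomputable section

namespace FA.FurstenbergSarkozy

open Finset Filter Polynomial
open scoped Topology

variable {n : ℕ} [NeZero n]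

theorem val_add_eq {y : ZMod n} {c : ℤ} (h0 : 0 ≤ (y.val : ℤ) + c)
    (h1 : (y.val : ℤ) + c < n) : ((y + (c : ZMod n)).val : ℤ) = (y.val : ℤ) + c := by
  have e : y + (c : ZMod n) = ((((y.val : ℤ) + c : ℤ)) : ZMod n) := by
    rw [Int.cast_add, Int.cast_natCast, ZMod.natCast_zmod_val]
  rw [e, ZMod.val_intCast, Int.emod_eq_of_lt h0 h1]

theorem card_filter_val_mem {A : Finset ℤ} (hA : A ⊆ Finset.Ico (0 : ℤ) n) :
    (univ.filter fun y : ZMod n => (y.val : ℤ) ∈ A).card = A.card := by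
  refine card_bij (fun y _ => (y.val : ℤ)) (fun y hy => (mem_filter.1 hy).2)
    (fun y _ y' _ e => ZMod.val_injective n (Nat.cast_injective e)) fun a ha => ?_
  have := mem_Ico.1 (hA ha)
  refine ⟨(a : ZMod n), mem_filter.2 ⟨mem_univ _, ?_⟩, ?_⟩
  · rwa [ZMod.val_intCast, Int.emod_eq_of_lt this.1 this.2]
  · rw [ZMod.val_intCast, Int.emod_eq_of_lt this.1 this.2]

/-- The balanced function of `A ⊆ [1, N]` on `ZMod n`. -/
def balanced (A : Finset ℤ) (N : ℕ) (a : ℝ) (y : ZMod n) : ℝ :=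
  (if (y.val : ℤ) ∈ A then 1 else 0) - a * if 1 ≤ y.val ∧ y.val ≤ N then 1 else 0

omit [NeZero n] in
theorem abs_balanced_le {A : Finset ℤ} {N : ℕ} {a : ℝ} (ha0 : 0 ≤ a) (ha1 : a ≤ 1)
    (y : ZMod n) : |balanced A N a y| ≤ 1 := by
  rw [balanced, abs_le]
  split_ifs <;> constructor <;> linarith

theorem sum_balanced {A : Finset ℤ} {N : ℕ} (a : ℝ) (hA : A ⊆ Icc (1 : ℤ) N) (hn : N < n) :
    ∑ y : ZMod n, balanced A N a y = A.card - a * N := by
  simp only [balanced, sum_sub_distrib, ← mul_sum, sum_boole]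
  rw [card_filter_val_mem (hA.trans fun x hx => by
    rw [mem_Icc] at hx
    exact mem_Ico.2 ⟨by omega, by omega⟩)]
  have e : (univ.filter fun y : ZMod n => 1 ≤ y.val ∧ y.val ≤ N) =
      univ.filter fun y : ZMod n => (y.val : ℤ) ∈ Icc (1 : ℤ) N := by
    ext y
    simp only [mem_filter, mem_univ, true_and, mem_Icc]
    omega
  rw [e, card_filter_val_mem fun x hx => by
    rw [mem_Icc] at hx
    exact mem_Ico.2 ⟨by omega, by omega⟩]
  simp

/-- An extremal set is even on progressions. -/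
theorem sum_abs_window_le {A : Finset ℤ} {N s L : ℕ} {a η : ℝ} (ha0 : 0 ≤ a) (ha1 : a ≤ 1)
    (hη : 0 ≤ η) (hA : A ⊆ Icc (1 : ℤ) N) (hn : n = 2 * N) (hsL : s * L < N)
    (hlow : (a - η) * N ≤ A.card)
    (hup : ∀ z : ℤ, (((Icc (1 : ℤ) L).filter fun i => z + (s : ℤ) * i ∈ A).card : ℝ) ≤
      (a + η) * L) :
    ∑ y : ZMod n, |window (balanced A N a) (s : ℤ) L y| ≤
      5 * η * L * N + 2 * (L : ℝ) * (2 * (s * L) + 2) := by
  obtain ⟨f, hf⟩ : ∃ f : ZMod n → ℝ, f = balanced A N a := ⟨_, rfl⟩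
  rw [← hf]
  obtain ⟨bad, hbad⟩ : ∃ bad : Finset (ZMod n), bad = univ.filter fun y : ZMod n =>
      y.val = 0 ∨ (N ≤ y.val + s * L ∧ y.val ≤ N) ∨ 2 * N ≤ y.val + s * L := ⟨_, rfl⟩
  have hbadcard : bad.card ≤ 2 * (s * L) + 2 := by
    have h1 : bad.image (fun y => y.val) ⊆
        insert 0 (Icc (N - s * L) N ∪ Ico (2 * N - s * L) (2 * N)) := fun v hv => by
      obtain ⟨y, hy, rfl⟩ := mem_image.1 hv
      rw [hbad, mem_filter] at hy
      have := ZMod.val_lt y
      simp only [mem_insert, mem_union, mem_Icc, mem_Ico]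
      omega
    refine le_trans (le_of_eq (card_image_of_injective _ (ZMod.val_injective n)).symm)
      ((card_le_card h1).trans ((card_insert_le _ _).trans
        (Nat.succ_le_succ (card_union_le _ _) |>.trans ?_)))
    simp only [Nat.card_Icc, Nat.card_Ico]
    omega
  have hpos : ∀ y : ZMod n, window f (s : ℤ) L y ≤
      (if y.val ≤ N then η * L else 0) + if y ∈ bad then (L : ℝ) else 0 := by
    intro y
    have hy := ZMod.val_lt y
    by_cases hb : y ∈ bad
    · rw [if_pos hb]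
      refine le_trans ?_ (le_add_of_nonneg_left (by split_ifs <;> positivity))
      refine (sum_le_sum fun i _ => (le_abs_self _).trans ?_).trans
        (le_of_eq (by simp : ∑ _i ∈ range L, (1 : ℝ) = L))
      exact hf ▸ abs_balanced_le ha0 ha1 _
    rw [if_neg hb, add_zero]
    rw [hbad, mem_filter] at hb
    simp only [mem_univ, true_and, not_or, not_and, not_le] at hb
    have hval : ∀ i < L, ((y + (((s : ℤ) * (i : ℕ) : ℤ) : ZMod n)).val : ℤ) =
        (y.val : ℤ) + (s : ℤ) * i := fun i hi => by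
      have : s * i ≤ s * L := Nat.mul_le_mul_left s hi.le
      refine val_add_eq (by positivity) ?_
      rw [← Nat.cast_mul, ← Nat.cast_add, Nat.cast_lt]
      omega
    split_ifs with hyN
    · -- inside
      have hin : y.val + s * L < N := by
        by_contra h
        exact absurd hyN (by have := hb.2.1 (not_lt.1 h); omega)
      rw [hf, window]
      simp only [balanced, sum_sub_distrib, ← mul_sum, sum_boole]
      have h1 : ((range L).filter fun i : ℕ => 1 ≤ (y + (((s : ℤ) * i : ℤ) : ZMod n)).val ∧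
          (y + (((s : ℤ) * i : ℤ) : ZMod n)).val ≤ N) = range L := filter_true_of_mem fun i hi => by
        have := hval i (mem_range.1 hi)
        have : s * i ≤ s * L := Nat.mul_le_mul_left s (mem_range.1 hi).le
        rw [← Nat.cast_mul, ← Nat.cast_add, Nat.cast_inj] at *
        omega
      rw [h1, card_range]
      have h2 : ((range L).filter fun i : ℕ =>
          ((y + (((s : ℤ) * i : ℤ) : ZMod n)).val : ℤ) ∈ A).card ≤
            ((Icc (1 : ℤ) L).filter fun i => ((y.val : ℤ) - s) + (s : ℤ) * i ∈ A).card := by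
        refine card_le_card_of_injOn (fun i : ℕ => (i : ℤ) + 1) (fun i hi => ?_)
          fun i _ j _ e => by simpa using e
        rw [mem_coe, mem_filter, mem_range] at hi
        rw [mem_coe, mem_filter, mem_Icc]
        dsimp only
        refine ⟨⟨by omega, by omega⟩, ?_⟩
        rw [hval i hi.1] at hi
        rw [show (y.val : ℤ) - s + (s : ℤ) * ((i : ℤ) + 1) = (y.val : ℤ) + (s : ℤ) * i by ring]
        exact hi.2
      linarith [(Nat.cast_le (α := ℝ)).2 h2, hup ((y.val : ℤ) - s)]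
    · -- outside
      refine le_of_eq (sum_eq_zero fun i hi => ?_)
      have h1 := hval i (mem_range.1 hi)
      have : s * i ≤ s * L := Nat.mul_le_mul_left s (mem_range.1 hi).le
      have h1' : (y + (((s : ℤ) * (i : ℕ) : ℤ) : ZMod n)).val = y.val + s * i :=
        Nat.cast_inj.1 (h1.trans (by rw [Nat.cast_add, Nat.cast_mul]) : ((_ : ℕ) : ℤ) = _)
      rw [hf, balanced, if_neg fun hm => ?_, if_neg (by omega), mul_zero, sub_zero]
      have := mem_Icc.1 (hA hm)
      omega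
  have hsum : ∑ y : ZMod n, window f (s : ℤ) L y = L * ((A.card : ℝ) - a * N) := by
    rw [show ∑ y : ZMod n, window f (s : ℤ) L y =
      ∑ i ∈ range L, ∑ y : ZMod n, f (y + (((s : ℤ) * i : ℤ) : ZMod n)) from sum_comm,
      sum_congr rfl fun i _ => sum_translate f _, sum_const, card_range, nsmul_eq_mul, hf,
      sum_balanced a hA (by omega)]
  have hN : ((univ.filter fun y : ZMod n => y.val ≤ N).card : ℝ) ≤ 2 * N := by
    refine (Nat.cast_le.2 (card_filter_le _ _)).trans (le_of_eq ?_)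
    rw [card_univ, ZMod.card, hn]
    push_cast
    rfl
  calc ∑ y : ZMod n, |window f (s : ℤ) L y|
      ≤ ∑ y : ZMod n, (2 * ((if y.val ≤ N then η * L else 0) + if y ∈ bad then (L : ℝ) else 0) -
          window f (s : ℤ) L y) := sum_le_sum fun y _ => by
        have h0 : (0 : ℝ) ≤ (if y.val ≤ N then η * L else 0) + if y ∈ bad then (L : ℝ) else 0 :=
          add_nonneg (by split_ifs <;> positivity) (by split_ifs <;> positivity)
        rw [abs_le]
        constructor <;> linarith [hpos y]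
    _ = 2 * ((univ.filter fun y : ZMod n => y.val ≤ N).card * (η * L) + bad.card * L) -
          L * ((A.card : ℝ) - a * N) := by
        rw [sum_sub_distrib, ← mul_sum, sum_add_distrib, ← sum_filter, sum_ite_mem, univ_inter,
          sum_const, sum_const, nsmul_eq_mul, nsmul_eq_mul, hsum]
    _ ≤ _ := by
        have h2 : (bad.card : ℝ) ≤ 2 * (s * L) + 2 := by exact_mod_cast hbadcard
        nlinarith [mul_le_mul_of_nonneg_right hN (mul_nonneg hη (Nat.cast_nonneg (α := ℝ) L)),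
          mul_le_mul_of_nonneg_right h2 (Nat.cast_nonneg (α := ℝ) L),
          mul_le_mul_of_nonneg_left hlow (Nat.cast_nonneg (α := ℝ) L)]

/-- A free set cannot be balanced against the values of the polynomial. -/
theorem free_mass_le {Q : ℤ[X]} (hQ : Q ≠ 0) {A : Finset ℤ} (hA : IsFree Q A) {N M B : ℕ}
    (hAN : A ⊆ Icc (1 : ℤ) N) (hn : n = 2 * N) {a : ℝ} (ha0 : 0 ≤ a)
    (hB : ∀ m < M, |Q.eval (m : ℤ)| ≤ B) (hBN : B < N) :
    a * M * ((A.card : ℝ) - 2 * B) ≤
      polyMass (balanced A N a : ZMod n → ℝ) Q M + Q.natDegree * n := by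
  obtain ⟨S, hS⟩ : ∃ S : Finset (ZMod n), S = univ.filter fun y : ZMod n => (y.val : ℤ) ∈ A :=
    ⟨_, rfl⟩
  have hval : ∀ y ∈ S, ∀ m < M, (1 : ℤ) ≤ (y.val : ℤ) ∧ (y.val : ℤ) ≤ N ∧
      |Q.eval (m : ℤ)| ≤ B := fun y hy m hm => by
    rw [hS, mem_filter] at hy
    exact ⟨(mem_Icc.1 (hAN hy.2)).1, (mem_Icc.1 (hAN hy.2)).2, hB m hm⟩
  have hroots : ((range M).filter fun m : ℕ => Q.eval (m : ℤ) = 0).card ≤ Q.natDegree := by
    rw [← card_image_of_injective _ (Nat.cast_injective (R := ℤ))]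
    refine card_le_degree_of_subset_roots fun x hx => ?_
    rw [mem_val, mem_image] at hx
    obtain ⟨m, hm, rfl⟩ := hx
    exact (mem_roots hQ).2 (mem_filter.1 hm).2
  -- the pairs of `A` along `Q` come only from the zeros of `Q`
  have h1 : ∀ y ∈ S, ∑ m ∈ range M, (if ((y + ((Q.eval (m : ℤ) : ℤ) : ZMod n)).val : ℤ) ∈ A
      then (1 : ℝ) else 0) ≤ Q.natDegree := by
    intro y hy
    rw [sum_boole]
    refine Nat.cast_le.2 (le_trans (card_le_card fun m hm => ?_) hroots)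
    rw [mem_filter, mem_range] at hm ⊢
    obtain ⟨hy1, hy2, hy3⟩ := hval y hy m hm.1
    rw [abs_le] at hy3
    refine ⟨hm.1, ?_⟩
    rcases lt_or_ge ((y.val : ℤ) + Q.eval (m : ℤ)) 0 with h | h
    · -- wrapped below
      have e := val_add_eq (y := y) (c := Q.eval (m : ℤ) + (n : ℤ)) (by omega) (by omega)
      rw [Int.cast_add, Int.cast_natCast, ZMod.natCast_self, add_zero] at e
      have := mem_Icc.1 (hAN hm.2)
      omega
    · have e := val_add_eq (y := y) (c := Q.eval (m : ℤ)) h (by omega)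
      rw [e] at hm
      rw [hS, mem_filter] at hy
      have := hA _ hm.2 _ hy.2 m (by ring)
      omega
  -- the main term
  have h2 : ∀ m < M, (A.card : ℝ) - 2 * B ≤ ∑ y ∈ S,
      (if 1 ≤ (y + ((Q.eval (m : ℤ) : ℤ) : ZMod n)).val ∧
        (y + ((Q.eval (m : ℤ) : ℤ) : ZMod n)).val ≤ N then (1 : ℝ) else 0) := by
    intro m hm
    rw [sum_boole, sub_le_iff_le_add]
    have hsub : S ⊆ (S.filter fun y => 1 ≤ (y + ((Q.eval (m : ℤ) : ℤ) : ZMod n)).val ∧
        (y + ((Q.eval (m : ℤ) : ℤ) : ZMod n)).val ≤ N) ∪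
          univ.filter fun y : ZMod n => (y.val : ℤ) ∈ Icc (1 : ℤ) B ∪ Ioc ((N : ℤ) - B) N := by
      intro y hy
      obtain ⟨hy1, hy2, hy3⟩ := hval y hy m hm
      rw [abs_le] at hy3
      by_cases hin : (B : ℤ) < y.val ∧ (y.val : ℤ) ≤ (N : ℤ) - B
      · refine mem_union_left _ (mem_filter.2 ⟨hy, ?_⟩)
        have e := val_add_eq (y := y) (c := Q.eval (m : ℤ)) (by omega) (by omega)
        omega
      · refine mem_union_right _ (mem_filter.2 ⟨mem_univ _, ?_⟩)
        rw [mem_union, mem_Icc, mem_Ioc]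
        omega
    have hc := (card_le_card hsub).trans (card_union_le _ _)
    rw [card_filter_val_mem (fun x hx => by
        rw [mem_union, mem_Icc, mem_Ioc] at hx
        exact mem_Ico.2 ⟨by omega, by omega⟩),
      show S.card = A.card by
        rw [hS]
        exact card_filter_val_mem (hAN.trans fun x hx => by
          rw [mem_Icc] at hx
          exact mem_Ico.2 ⟨by omega, by omega⟩)] at hc
    have h4 : (Icc (1 : ℤ) B ∪ Ioc ((N : ℤ) - B) N).card ≤ 2 * B := by
      refine (card_union_le _ _).trans (le_of_eq ?_)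
      simp
      omega
    have h5 := (Nat.cast_le (α := ℝ)).2 (hc.trans (Nat.add_le_add_left h4 _))
    push_cast at h5
    linarith
  have h3 : ∀ y ∈ S, a * ∑ m ∈ range M, (if 1 ≤ (y + ((Q.eval (m : ℤ) : ℤ) : ZMod n)).val ∧
      (y + ((Q.eval (m : ℤ) : ℤ) : ZMod n)).val ≤ N then (1 : ℝ) else 0) ≤
        |∑ m ∈ range M, balanced A N a (y + ((Q.eval (m : ℤ) : ℤ) : ZMod n))| + Q.natDegree := by
    intro y hy
    refine le_trans ?_ (add_le_add_left (neg_le_abs _) _)
    simp only [balanced, sum_sub_distrib, ← mul_sum]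
    linarith [h1 y hy]
  have h4 : a * M * ((A.card : ℝ) - 2 * B) ≤
      ∑ y ∈ S, a * ∑ m ∈ range M, (if 1 ≤ (y + ((Q.eval (m : ℤ) : ℤ) : ZMod n)).val ∧
        (y + ((Q.eval (m : ℤ) : ℤ) : ZMod n)).val ≤ N then (1 : ℝ) else 0) := by
    rw [← mul_sum, mul_assoc]
    refine mul_le_mul_of_nonneg_left ?_ ha0
    rw [sum_comm]
    refine le_trans (le_of_eq ?_) (sum_le_sum fun m hm => h2 m (mem_range.1 hm))
    rw [sum_const, card_range, nsmul_eq_mul]
  refine h4.trans ((sum_le_sum h3).trans ?_)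
  rw [sum_add_distrib, sum_const, nsmul_eq_mul, polyMass, mul_comm (Q.natDegree : ℝ)]
  refine add_le_add (sum_le_sum_of_subset_of_nonneg (subset_univ _) fun y _ _ => abs_nonneg _) ?_
  exact mul_le_mul_of_nonneg_right (Nat.cast_le.2 ((card_le_univ S).trans_eq (ZMod.card n)))
    (Nat.cast_nonneg _)

/-- **The extremal densities vanish.** -/
theorem density_eq_zero {R : ℤ[X]} (hR : R ≠ 0) {t₀ : ℕ} (ht₀ : t₀ ≠ 0) :
    density R t₀ = 0 := by
  by_contra h
  have hpos : 0 < density R t₀ := lt_of_le_of_ne (density_nonneg R t₀) (Ne.symm h)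
  obtain ⟨D, hD⟩ : ∃ D : Set ℝ, D = density R '' {t | t ≠ 0} := ⟨_, rfl⟩
  have hbdd : BddAbove D := ⟨1, fun x hx => by
    rw [hD] at hx
    obtain ⟨t, -, rfl⟩ := hx
    exact density_le_one R t⟩
  obtain ⟨a, hadef⟩ : ∃ a, a = sSup D := ⟨_, rfl⟩
  have hle : ∀ t, t ≠ 0 → density R t ≤ a := fun t ht =>
    hadef ▸ le_csSup hbdd (hD ▸ ⟨t, ht, rfl⟩)
  have ha : 0 < a := hpos.trans_le (hle t₀ ht₀)
  have ha1 : a ≤ 1 := hadef ▸ csSup_le (hD ▸ ⟨_, ⟨t₀, ht₀, rfl⟩⟩) fun x hx => by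
    rw [hD] at hx
    obtain ⟨t, -, rfl⟩ := hx
    exact density_le_one R t
  obtain ⟨ρ, hρ, hspec⟩ := exists_polyMass_le R.natDegree (a ^ 2 / 16) (by positivity)
  obtain ⟨η, hη, hηρ, hηa⟩ : ∃ η : ℝ, 0 < η ∧ η ≤ ρ / 8 ∧ η ≤ a / 8 :=
    ⟨min (ρ / 8) (a / 8), lt_min (by positivity) (by positivity), min_le_left _ _,
      min_le_right _ _⟩
  obtain ⟨x, hx, hax⟩ := exists_lt_of_lt_csSup (hD ▸ ⟨_, ⟨t₀, ht₀, rfl⟩⟩ : D.Nonempty)
    (hadef ▸ (show a - η < a by linarith) : a - η < sSup D)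
  rw [hD] at hx
  obtain ⟨t, ht, rfl⟩ := hx
  obtain ⟨S, hS0, hS⟩ := hspec (scaled R t) (natDegree_scaled hR ht)
  have hLev : ∀ᶠ L : ℕ in atTop, ∀ s ∈ S, (maxFree (scaled R (t * s)) L : ℝ) ≤ (a + η) * L :=
    (eventually_all_finset S).2 fun s hs => eventually_maxFree_le R (t * s)
      (lt_of_le_of_lt (hle _ (mul_ne_zero ht (ne_of_mem_of_not_mem hs hS0))) (by linarith))
  obtain ⟨L, hL, hL0⟩ := (hLev.and (eventually_gt_atTop 0)).exists
  obtain ⟨M, hM, hM1⟩ := ((hS L hL0).and ((tendsto_natCast_atTop_atTop (R := ℝ)).eventually_gt_atTop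
    (16 * (R.natDegree + 1) / a ^ 2))).exists
  have hQ0 : scaled R t ≠ 0 := fun e => by simpa [e] using natDegree_scaled hR ht
  obtain ⟨B, hB⟩ : ∃ B : ℕ, B = (range M).sup fun m => ((scaled R t).eval (m : ℤ)).natAbs :=
    ⟨_, rfl⟩
  obtain ⟨σ, hσ⟩ : ∃ σ : ℕ, σ = S.sup id := ⟨_, rfl⟩
  obtain ⟨N, hN⟩ := exists_nat_gt (max (max (16 * (B : ℝ) / a) ((σ : ℝ) * L + 1))
    (2 * (2 * ((σ : ℝ) * L) + 2) / η))
  simp only [max_lt_iff] at hN
  obtain ⟨⟨hN1, hN2⟩, hN3⟩ := hN
  rw [div_lt_iff₀ ha] at hN1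
  rw [div_lt_iff₀ hη] at hN3
  have hN0 : (0 : ℝ) < N := lt_of_le_of_lt (by positivity) hN2
  have : NeZero (2 * N) := ⟨by have := Nat.cast_pos.1 hN0; omega⟩
  obtain ⟨A, hA, hfree, hcard⟩ := exists_card_eq_maxFree (scaled R t) N
  have hlow : (a - η) * N ≤ A.card := by
    rw [hcard]
    refine le_trans (mul_le_mul_of_nonneg_right hax.le (Nat.cast_nonneg N)) ?_
    exact density_mul_le R t (Nat.cast_pos.1 hN0).ne'
  have hmass := hM (2 * N) (balanced A N a) (abs_balanced_le ha.le ha1) fun s hs => by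
    have hsσ : s ≤ σ := hσ ▸ le_sup (f := id) hs
    have hsL : s * L < N := by
      have : (σ : ℝ) * L < N := by linarith
      exact (Nat.mul_le_mul_right L hsσ).trans_lt (by exact_mod_cast this)
    refine (sum_abs_window_le ha.le ha1 hη.le hA rfl hsL hlow fun z =>
      (Nat.cast_le.2 (card_progression_le (ne_of_mem_of_not_mem hs hS0) hfree z L)).trans
        (hL s hs)).trans ?_
    have h1 : 2 * (L : ℝ) * (2 * (s * L) + 2) ≤ η * L * N := by
      have hsσ' : (s : ℝ) * L ≤ σ * L :=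
        mul_le_mul_of_nonneg_right (Nat.cast_le.2 hsσ) (Nat.cast_nonneg L)
      nlinarith [Nat.cast_nonneg (α := ℝ) L]
    push_cast
    nlinarith [mul_le_mul_of_nonneg_right hηρ (show (0 : ℝ) ≤ L * N by positivity),
      mul_nonneg hρ.le (show (0 : ℝ) ≤ L * N by positivity)]
  have hfm := free_mass_le (n := 2 * N) hQ0 hfree hA rfl ha.le (M := M) (B := B) (fun m hm => by
    rw [Int.abs_eq_natAbs]
    exact Nat.cast_le.2 (hB ▸ le_sup (f := fun m : ℕ => ((scaled R t).eval (m : ℤ)).natAbs)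
      (mem_range.2 hm))) (by
    have : (B : ℝ) < N := by nlinarith [Nat.cast_nonneg (α := ℝ) B]
    exact_mod_cast this)
  rw [natDegree_scaled hR ht] at hfm
  push_cast at hfm hmass
  have hM2 : 16 * ((R.natDegree : ℝ) + 1) < a ^ 2 * M := by
    rw [div_lt_iff₀ (by positivity)] at hM1
    linarith
  have h3 : a * (3 / 4) * N ≤ (A.card : ℝ) - 2 * B := by nlinarith
  nlinarith [mul_le_mul_of_nonneg_left h3 (show (0 : ℝ) ≤ a * M by positivity),
    mul_lt_mul_of_pos_right hM2 hN0]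

/-- **The theorem of Furstenberg and Sárközy.** -/
theorem exists_difference {P : ℤ[X]} (hP : P ≠ 0) (hP0 : P.eval 0 = 0) {δ : ℝ} (hδ : 0 < δ) :
    ∃ N₀ : ℕ, ∀ N : ℕ, N₀ ≤ N → ∀ A : Finset ℤ, A ⊆ Icc (1 : ℤ) N → δ * N ≤ A.card →
      ∃ a ∈ A, ∃ b ∈ A, a ≠ b ∧ ∃ m : ℕ, 1 ≤ m ∧ a - b = P.eval (m : ℤ) := by
  obtain ⟨R, rfl⟩ : X ∣ P := X_dvd_iff.2 (by rwa [coeff_zero_eq_eval_zero])
  have hR : R ≠ 0 := right_ne_zero_of_mul hP
  have h1 : ∀ᶠ L : ℕ in atTop, (maxFree (scaled R 1) L : ℝ) ≤ δ / 2 * L :=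
    eventually_maxFree_le R 1 (by rw [density_eq_zero hR one_ne_zero]; positivity)
  obtain ⟨N₀, hN₀⟩ := eventually_atTop.1 h1
  refine ⟨max N₀ 1, fun N hN A hA hAc => ?_⟩
  by_contra! hcon
  have hfree : IsFree (scaled R 1) A := fun a ha b hb m hm => by
    rw [scaled_eval, Nat.cast_one, one_mul] at hm
    rcases Nat.eq_zero_or_pos m with rfl | hm0
    · simpa [sub_eq_zero] using hm
    · by_contra hne
      exact hcon a ha b hb hne m hm0 (by rw [hm, eval_mul, eval_X])
  have := (Nat.cast_le (α := ℝ)).2 (card_le_maxFree hA hfree)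
  have := hN₀ N ((le_max_left _ _).trans hN)
  have : (1 : ℝ) ≤ N := Nat.one_le_cast.2 ((le_max_right _ _).trans hN)
  nlinarith

end FA.FurstenbergSarkozy
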